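import Mathlib
import Fermat.Agent.FlatModel.Model

/-!
# The discriminant of a flat order

Let `A` be a Hopf order of functions on a finite abelian group `M` of order `n`, over a local
principal ideal domain `R`. The trace form on `A` is `c` times a perfect form, so the discriminant
of `A` is `c ^ n` times a unit.
-/

set_option autoImplicit false

open TensorProduct IsLocalRing

namespace Fermat.Agent.P2.St2

section Linear

/-- generalised inverses of matrices over a field -/
theorem exists_generalized_inverse {k V W : Type*} [Field k] [AddCommGroup V] [Module k V]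
    [AddCommGroup W] [Module k W] (f : V →ₗ[k] W) : ∃ g : W →ₗ[k] V, ∀ x, f (g (f x)) = f x := by
  obtain ⟨s, hs⟩ := f.rangeRestrict.exists_rightInverse_of_surjective
    (LinearMap.range_eq_top.mpr f.surjective_rangeRestrict)
  obtain ⟨g, hg⟩ := LinearMap.exists_extend s
  refine ⟨g, fun x => ?_⟩
  have h1 : g (f x) = s (f.rangeRestrict x) := LinearMap.congr_fun hg (f.rangeRestrict x)
  rw [h1]
  have h2 := LinearMap.congr_fun hs (f.rangeRestrict x)
  exact congrArg Subtype.val h2

end Linear

variable {R K : Type*} [CommRing R] [IsDomain R] [IsPrincipalIdealRing R] [IsLocalRing R]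
  [Field K] [CharZero K] [Algebra R K] {M : Type*} [AddCommGroup M] [Fintype M]

/-- a Hopf order of functions on `M` -/
structure HopfOrder (A : Subalgebra R (M → K)) : Prop where
  inj : Function.Injective (algebraMap R K)
  comul : ∀ a : A, ∃ s : Finset (A × A), ∀ x y : M, (a : M → K) (x + y) =
    ∑ k ∈ s, (k.1 : M → K) x * (k.2 : M → K) y
  neg : ∀ a : A, ∃ a' : A, ∀ x : M, (a' : M → K) x = (a : M → K) (-x)
  zero : ∀ a : A, ∃ r : R, algebraMap R K r = (a : M → K) 0
  trace : ∀ a : A, ∃ r : R, algebraMap R K r = ∑ x, (a : M → K) x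

namespace HopfOrder

variable {A : Subalgebra R (M → K)} (h : HopfOrder A)

/-- the trace -/
noncomputable def T : A →ₗ[R] R where
  toFun a := (h.trace a).choose
  map_add' a b := h.inj (by
    rw [map_add, (h.trace _).choose_spec, (h.trace _).choose_spec, (h.trace _).choose_spec,
      ← Finset.sum_add_distrib]
    rfl)
  map_smul' r a := h.inj (by
    rw [RingHom.id_apply, smul_eq_mul, map_mul, (h.trace _).choose_spec, (h.trace _).choose_spec,
      Finset.mul_sum]
    refine Finset.sum_congr rfl fun x _ => ?_
    rw [← Algebra.smul_def]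
    rfl)

theorem T_spec (a : A) : algebraMap R K (h.T a) = ∑ x, (a : M → K) x := (h.trace a).choose_spec

/-- **the normalised trace** -/
theorem exists_lam : ∃ (c : R) (lam : A →ₗ[R] R), c ≠ 0 ∧ (∀ a, h.T a = c * lam a) ∧
    ∃ t, lam t = 1 := by
  obtain ⟨c, hc⟩ := (IsPrincipalIdealRing.principal (LinearMap.range h.T : Ideal R)).principal
  have h1 : h.T 1 ≠ 0 := by
    intro h0
    have h2 := h.T_spec 1
    rw [h0, map_zero] at h2
    have h3 : ∑ x : M, ((1 : A) : M → K) x = (Fintype.card M : K) := by
      simp
    rw [h3] at h2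
    have : (Fintype.card M : K) ≠ 0 := by
      exact_mod_cast Fintype.card_ne_zero
    exact this h2.symm
  have hc0 : c ≠ 0 := by
    rintro rfl
    apply h1
    have : h.T 1 ∈ LinearMap.range h.T := ⟨1, rfl⟩
    rw [hc] at this
    simpa using this
  have hex : ∀ a, ∃ r, h.T a = c * r := by
    intro a
    have : h.T a ∈ LinearMap.range h.T := ⟨a, rfl⟩
    rw [hc, Submodule.mem_span_singleton] at this
    obtain ⟨r, hr⟩ := this
    exact ⟨r, by rw [← hr, smul_eq_mul, mul_comm]⟩
  choose l hl using hex
  refine ⟨c, { toFun := l, map_add' := ?_, map_smul' := ?_ }, hc0, hl, ?_⟩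
  · intro a b
    refine mul_left_cancel₀ hc0 ?_
    rw [← hl, map_add, hl, hl, mul_add]
  · intro r a
    refine mul_left_cancel₀ hc0 ?_
    rw [← hl, map_smul, hl, RingHom.id_apply, smul_eq_mul, smul_eq_mul]
    ring
  · have : c ∈ LinearMap.range h.T := by rw [hc]; exact Submodule.mem_span_singleton_self c
    obtain ⟨t, ht⟩ := this
    refine ⟨t, mul_left_cancel₀ hc0 ?_⟩
    show c * l t = c * 1
    rw [← hl, ht, mul_one]

variable {n : ℕ} (b : Module.Basis (Fin n) R A)

/-- splitting modulo the radical -/
theorem exists_split (lam : A →ₗ[R] R) : ∃ e : Fin n → A, ∀ a : A,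
    ∀ y : A, lam ((a - ∑ i, lam (a * b i) • e i) * y) ∈ maximalIdeal R := by
  classical
  let k := ResidueField R
  let f : (Fin n → k) →ₗ[k] (Fin n → k) :=
    Matrix.toLin' (Matrix.of fun i j => residue R (lam (b j * b i)))
  obtain ⟨g, hg⟩ := exists_generalized_inverse f
  choose lift hlift using residue_surjective (R := R)
  let e : Fin n → A := fun i => ∑ l, lift (g (Pi.single i 1) l) • b l
  refine ⟨e, fun a y => ?_⟩
  -- the vector of `a`
  have hf : ∀ (v : Fin n → R), f (fun j => residue R (v j)) =
      fun i => residue R (lam ((∑ j, v j • b j) * b i)) := by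
    intro v
    funext i
    rw [Matrix.toLin'_apply, Matrix.mulVec, dotProduct]
    rw [Finset.sum_mul, map_sum, map_sum]
    refine Finset.sum_congr rfl fun j _ => ?_
    rw [Matrix.of_apply, smul_mul_assoc, map_smul, smul_eq_mul, mul_comm]
    exact ((residue R).map_mul _ _).symm
  obtain ⟨a', ha'⟩ : ∃ a' : A, a' = ∑ i, lam (a * b i) • e i := ⟨_, rfl⟩
  rw [← ha']
  -- coordinates of `a'`
  have ha'coord : (fun l => residue R (b.repr a' l)) =
      g (fun i => residue R (lam (a * b i))) := by
    have h1 : (fun i => residue R (lam (a * b i))) =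
        ∑ i, residue R (lam (a * b i)) • (Pi.single i 1 : Fin n → k) := by
      funext l
      simp [Finset.sum_apply, Pi.single_apply]
    rw [h1, map_sum]
    funext l
    rw [Finset.sum_apply, ha', map_sum, Finsupp.finsetSum_apply, map_sum]
    refine Finset.sum_congr rfl fun i _ => ?_
    rw [map_smul, Finsupp.smul_apply, smul_eq_mul, RingHom.map_mul, map_smul, Pi.smul_apply,
      smul_eq_mul]
    congr 1
    show residue R (b.repr (∑ l, lift (g (Pi.single i 1) l) • b l) l) = _
    rw [map_sum, Finsupp.finsetSum_apply]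
    simp only [map_smul, Module.Basis.repr_self, Finsupp.smul_apply, Finsupp.single_apply,
      smul_eq_mul, mul_ite, mul_one, mul_zero]
    rw [Finset.sum_ite_eq' Finset.univ l, if_pos (Finset.mem_univ l), hlift]
  have key : ∀ i, residue R (lam ((a - a') * b i)) = 0 := by
    intro i
    have h1 : f (fun j => residue R (b.repr a j)) = fun i => residue R (lam (a * b i)) := by
      rw [hf, b.sum_repr]
    have h2 : f (fun j => residue R (b.repr a' j)) = fun i => residue R (lam (a' * b i)) := by
      rw [hf, b.sum_repr]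
    rw [ha'coord, ← h1, hg, h1] at h2
    have h3 := congrFun h2 i
    rw [sub_mul, map_sub, map_sub, h3, sub_self]
  rw [← residue_eq_zero_iff]
  rw [← b.sum_repr y, Finset.mul_sum, map_sum, map_sum]
  refine Finset.sum_eq_zero fun i _ => ?_
  rw [mul_smul_comm, map_smul, smul_eq_mul, RingHom.map_mul, key, mul_zero]

omit [IsDomain R] [IsPrincipalIdealRing R] [IsLocalRing R] [CharZero K] [AddCommGroup M]
  [Fintype M] in
theorem coe_smul (r : R) (a : A) (x : M) : ((r • a : A) : M → K) x =
    algebraMap R K r * (a : M → K) x := by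
  rw [← Algebra.smul_def]
  rfl

omit [IsDomain R] [IsPrincipalIdealRing R] [IsLocalRing R] [CharZero K] [AddCommGroup M]
  [Fintype M] in
theorem coe_sum {ι : Type*} (s : Finset ι) (f : ι → A) (x : M) :
    ((∑ i ∈ s, f i : A) : M → K) x = ∑ i ∈ s, (f i : M → K) x := by
  have : ((∑ i ∈ s, f i : A) : M → K) = ∑ i ∈ s, (f i : M → K) := by
    rw [← Subalgebra.coe_val, map_sum]
  rw [this, Finset.sum_apply]

theorem smul_mem_iff {a : A} : a ∈ (maximalIdeal R • (⊤ : Submodule R A)) ↔
    ∀ i, b.repr a i ∈ maximalIdeal R := by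
  constructor
  · intro ha i
    refine Submodule.smul_induction_on ha ?_ ?_
    · intro r hr x _
      rw [map_smul, Finsupp.smul_apply, smul_eq_mul]
      exact Ideal.mul_mem_right _ _ hr
    · intro x y hx hy
      rw [map_add, Finsupp.add_apply]
      exact Ideal.add_mem _ hx hy
  · intro ha
    rw [← b.sum_repr a]
    exact Submodule.sum_mem _ fun i _ => Submodule.smul_mem_smul (ha i) Submodule.mem_top

include h b in
/-- **Perfectness of the normalised trace form** (Larson–Sweedler). -/
theorem mem_of_lam {c : R} {lam : A →ₗ[R] R} (hc : c ≠ 0) (hlam : ∀ a, h.T a = c * lam a)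
    {t : A} (ht : lam t = 1) {a : A} (ha : ∀ y : A, lam (a * y) ∈ maximalIdeal R) :
    a ∈ (maximalIdeal R • (⊤ : Submodule R A)) := by
  classical
  obtain ⟨e, he⟩ := exists_split b lam
  have hcK : algebraMap R K c ≠ 0 := fun h0 => hc (h.inj (by rw [h0, map_zero]))
  have hlamK : ∀ a : A, algebraMap R K c * algebraMap R K (lam a) = ∑ x, (a : M → K) x := by
    intro a
    rw [← map_mul, ← hlam, h.T_spec]
  -- for `a` in the radical: decomposition of `a (x + y)`
  have main : ∀ a : A, (∀ y : A, lam (a * y) ∈ maximalIdeal R) →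
      ∃ (s : Finset (A × A)) (g : Fin n → A),
        (∀ i, g i ∈ (maximalIdeal R • (⊤ : Submodule R A))) ∧
        ∃ ι : A × A → A, (∀ k ∈ s, ∀ y : A, lam (ι k * y) ∈ maximalIdeal R) ∧
        ∀ x y : M, (a : M → K) (x + y) = ∑ i, (e i : M → K) x * (g i : M → K) y +
          ∑ k ∈ s, (ι k : M → K) x * (k.2 : M → K) y := by
    intro a ha
    obtain ⟨s, hs⟩ := h.comul a
    let g : Fin n → A := fun i => ∑ k ∈ s, lam (k.1 * b i) • k.2
    let ι : A × A → A := fun k => k.1 - ∑ i, lam (k.1 * b i) • e i
    refine ⟨s, g, ?_, ι, fun k _ => he k.1, ?_⟩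
    · intro i
      obtain ⟨s', hs'⟩ := h.comul (b i)
      choose ng hng using h.neg
      have hg : g i = ∑ l ∈ s', lam (a * l.1) • ng l.2 := by
        apply Subtype.ext
        funext y
        refine mul_left_cancel₀ hcK ?_
        show algebraMap R K c * ((∑ k ∈ s, lam (k.1 * b i) • k.2 : A) : M → K) y = _
        show algebraMap R K c * ((∑ k ∈ s, lam (k.1 * b i) • k.2 : A) : M → K) y =
          algebraMap R K c * ((∑ l ∈ s', lam (a * l.1) • ng l.2 : A) : M → K) y
        rw [coe_sum, coe_sum, Finset.mul_sum, Finset.mul_sum]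
        have e1 : ∑ k ∈ s, algebraMap R K c * ((lam (k.1 * b i) • k.2 : A) : M → K) y =
            ∑ x, (a : M → K) (x + y) * (b i : M → K) x := by
          calc ∑ k ∈ s, algebraMap R K c * ((lam (k.1 * b i) • k.2 : A) : M → K) y
              = ∑ k ∈ s, ∑ x, (k.1 : M → K) x * (b i : M → K) x * (k.2 : M → K) y := by
                refine Finset.sum_congr rfl fun k _ => ?_
                rw [coe_smul, ← mul_assoc, hlamK, Finset.sum_mul]
                rfl
            _ = ∑ x, ∑ k ∈ s, (k.1 : M → K) x * (b i : M → K) x * (k.2 : M → K) y :=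
                Finset.sum_comm
            _ = ∑ x, (a : M → K) (x + y) * (b i : M → K) x := by
                refine Finset.sum_congr rfl fun x _ => ?_
                rw [hs, Finset.sum_mul]
                refine Finset.sum_congr rfl fun k _ => ?_
                ring
        have e2 : ∑ l ∈ s', algebraMap R K c * ((lam (a * l.1) • ng l.2 : A) : M → K) y =
            ∑ x, (a : M → K) x * (b i : M → K) (x + -y) := by
          calc ∑ l ∈ s', algebraMap R K c * ((lam (a * l.1) • ng l.2 : A) : M → K) y
              = ∑ l ∈ s', ∑ x, (a : M → K) x * (l.1 : M → K) x * (l.2 : M → K) (-y) := by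
                refine Finset.sum_congr rfl fun l _ => ?_
                rw [coe_smul, ← mul_assoc, hlamK, Finset.sum_mul, hng]
                rfl
            _ = ∑ x, ∑ l ∈ s', (a : M → K) x * (l.1 : M → K) x * (l.2 : M → K) (-y) :=
                Finset.sum_comm
            _ = ∑ x, (a : M → K) x * (b i : M → K) (x + -y) := by
                refine Finset.sum_congr rfl fun x _ => ?_
                rw [hs', Finset.mul_sum]
                refine Finset.sum_congr rfl fun k _ => ?_
                ring
        rw [e1, e2]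
        refine Fintype.sum_equiv (Equiv.addRight y) _ _ fun x => ?_
        rw [Equiv.coe_addRight, add_neg_cancel_right]
      rw [hg]
      exact Submodule.sum_mem _ fun l _ =>
        Submodule.smul_mem_smul (ha l.1) Submodule.mem_top
    · intro x y
      rw [hs]
      have e1 : ∀ k ∈ s, (k.1 : M → K) x * (k.2 : M → K) y =
          (∑ i, (e i : M → K) x * (algebraMap R K (lam (k.1 * b i)) * (k.2 : M → K) y)) +
            (ι k : M → K) x * (k.2 : M → K) y := by
        intro k _
        have e2 : (k.1 : M → K) x = (∑ i, algebraMap R K (lam (k.1 * b i)) * (e i : M → K) x) +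
            (ι k : M → K) x := by
          have e3 : (ι k : M → K) x = (k.1 : M → K) x -
              ((∑ i, lam (k.1 * b i) • e i : A) : M → K) x := rfl
          rw [e3, coe_sum]
          have e4 : ∑ i, ((lam (k.1 * b i) • e i : A) : M → K) x =
            ∑ i, algebraMap R K (lam (k.1 * b i)) * (e i : M → K) x :=
            Finset.sum_congr rfl fun i _ => coe_smul _ _ _
          rw [e4]
          ring
        conv_lhs => rw [e2]
        rw [add_mul, Finset.sum_mul]
        congr 1
        refine Finset.sum_congr rfl fun i _ => ?_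
        ring
      rw [Finset.sum_congr rfl e1, Finset.sum_add_distrib, Finset.sum_comm]
      congr 1
      refine Finset.sum_congr rfl fun i _ => ?_
      show _ = (e i : M → K) x * ((∑ k ∈ s, lam (k.1 * b i) • k.2 : A) : M → K) y
      rw [coe_sum, ← Finset.mul_sum]
      congr 1
      exact Finset.sum_congr rfl fun k _ => (coe_smul _ _ _).symm
  -- the radical is an ideal containing `𝔪 A`
  have hrad : ∀ a : A, a ∈ (maximalIdeal R • (⊤ : Submodule R A)) →
      ∀ y : A, lam (a * y) ∈ maximalIdeal R := by
    intro a ha y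
    refine Submodule.smul_induction_on ha ?_ ?_
    · intro r hr x _
      rw [smul_mul_assoc, map_smul, smul_eq_mul]
      exact Ideal.mul_mem_right _ _ hr
    · intro x z hx hz
      rw [add_mul, map_add]
      exact Ideal.add_mem _ hx hz
  choose z hz using h.zero
  -- values at `0`
  have hzero : ∀ a : A, (∀ y : A, lam (a * y) ∈ maximalIdeal R) → z a ∈ maximalIdeal R := by
    intro a ha
    obtain ⟨s, g, hg, ι, hι, hdec⟩ := main a ha
    choose ng hng using h.neg
    have e1 : z a • (1 : A) = ∑ i, e i * ng (g i) + ∑ k ∈ s, ι k * ng k.2 := by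
      apply Subtype.ext
      funext x
      have e2 := hdec x (-x)
      rw [add_neg_cancel] at e2
      rw [coe_smul]
      have e3 : ((1 : A) : M → K) x = 1 := rfl
      rw [e3, mul_one, hz, e2]
      have e4 : ((∑ i, e i * ng (g i) + ∑ k ∈ s, ι k * ng k.2 : A) : M → K) x =
        ((∑ i, e i * ng (g i) : A) : M → K) x + ((∑ k ∈ s, ι k * ng k.2 : A) : M → K) x := rfl
      rw [e4, coe_sum, coe_sum]
      congr 1
      · refine Finset.sum_congr rfl fun i _ => ?_
        rw [← hng]
        rfl
      · refine Finset.sum_congr rfl fun k _ => ?_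
        rw [← hng]
        rfl
    have hngsmul : ∀ i, ng (g i) ∈ (maximalIdeal R • (⊤ : Submodule R A)) := by
      intro i
      have hgi := hg i
      rw [smul_mem_iff b] at hgi
      have e2 : ng (g i) = ∑ l, b.repr (g i) l • ng (b l) := by
        apply Subtype.ext
        funext x
        rw [hng, coe_sum]
        conv_lhs => rw [← b.sum_repr (g i)]
        rw [coe_sum]
        refine Finset.sum_congr rfl fun l _ => ?_
        rw [coe_smul, coe_smul, hng]
      rw [e2]
      exact Submodule.sum_mem _ fun l _ => Submodule.smul_mem_smul (hgi l) Submodule.mem_top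
    have e5 : lam ((z a • (1 : A)) * t) ∈ maximalIdeal R := by
      rw [e1, add_mul, map_add]
      refine Ideal.add_mem _ ?_ ?_
      · rw [Finset.sum_mul, map_sum]
        refine Ideal.sum_mem _ fun i _ => ?_
        have : e i * ng (g i) * t = ng (g i) * (e i * t) := by ring
        rw [this]
        exact hrad _ (hngsmul i) _
      · rw [Finset.sum_mul, map_sum]
        refine Ideal.sum_mem _ fun k hk => ?_
        rw [mul_assoc]
        exact hι k hk _
    rwa [smul_mul_assoc, one_mul, map_smul, ht, smul_eq_mul, mul_one] at e5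
  obtain ⟨s, g, hg, ι, hι, hdec⟩ := main a ha
  have e1 : a = ∑ i, z (e i) • g i + ∑ k ∈ s, z (ι k) • k.2 := by
    apply Subtype.ext
    funext y
    have e2 := hdec 0 y
    rw [zero_add] at e2
    rw [e2]
    have e4 : ((∑ i, z (e i) • g i + ∑ k ∈ s, z (ι k) • k.2 : A) : M → K) y =
        ((∑ i, z (e i) • g i : A) : M → K) y + ((∑ k ∈ s, z (ι k) • k.2 : A) : M → K) y := rfl
    rw [e4, coe_sum, coe_sum]
    congr 1
    · refine Finset.sum_congr rfl fun i _ => ?_
      rw [coe_smul, hz]
    · refine Finset.sum_congr rfl fun k _ => ?_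
      rw [coe_smul, hz]
  rw [e1]
  refine Submodule.add_mem _ ?_ ?_
  · exact Submodule.sum_mem _ fun i _ => Submodule.smul_mem _ _ (hg i)
  · exact Submodule.sum_mem _ fun k hk =>
      Submodule.smul_mem_smul (hzero _ (hι k hk)) Submodule.mem_top

include h in
/-- the Gram determinant is a unit -/
theorem isUnit_gram {c : R} {lam : A →ₗ[R] R} (hc : c ≠ 0) (hlam : ∀ a, h.T a = c * lam a)
    {t : A} (ht : lam t = 1) :
    IsUnit (Matrix.of fun i j : Fin n => lam (b i * b j)).det := by
  classical
  by_contra hcon
  have h1 : (Matrix.of fun i j : Fin n => lam (b i * b j)).det ∈ maximalIdeal R := hcon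
  rw [← residue_eq_zero_iff, RingHom.map_det] at h1
  obtain ⟨v, hv0, hv⟩ := Matrix.exists_mulVec_eq_zero_iff.mpr h1
  choose lift hlift using residue_surjective (R := R)
  set a : A := ∑ j, lift (v j) • b j with ha
  have hrepr : ∀ j, b.repr a j = lift (v j) := by
    intro j
    rw [ha, map_sum, Finsupp.finsetSum_apply]
    simp only [map_smul, Module.Basis.repr_self, Finsupp.smul_apply, Finsupp.single_apply,
      smul_eq_mul, mul_ite, mul_one, mul_zero]
    rw [Finset.sum_ite_eq' Finset.univ j, if_pos (Finset.mem_univ j)]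
  have key : ∀ i, lam (a * b i) ∈ maximalIdeal R := by
    intro i
    rw [← residue_eq_zero_iff, ha, Finset.sum_mul, map_sum, map_sum]
    have h2 := congrFun hv i
    rw [Matrix.mulVec, dotProduct, Pi.zero_apply] at h2
    rw [← h2]
    refine Finset.sum_congr rfl fun j _ => ?_
    rw [smul_mul_assoc, map_smul, smul_eq_mul, RingHom.map_mul, hlift, mul_comm,
      mul_comm (b j) (b i)]
    rfl
  have hmem : a ∈ (maximalIdeal R • (⊤ : Submodule R A)) := by
    refine h.mem_of_lam b hc hlam ht fun y => ?_
    rw [← b.sum_repr y, Finset.mul_sum, map_sum]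
    refine Ideal.sum_mem _ fun i _ => ?_
    rw [mul_smul_comm, map_smul, smul_eq_mul]
    exact Ideal.mul_mem_left _ _ (key i)
  rw [smul_mem_iff b] at hmem
  apply hv0
  funext j
  have h3 := hmem j
  rw [hrepr, ← residue_eq_zero_iff, hlift] at h3
  exact h3

include h in
/-- **The discriminant of a Hopf order.** -/
theorem exists_disc (e : Fin n ≃ M) : ∃ c u : R, c ≠ 0 ∧ IsUnit u ∧
    (Matrix.of fun i j : Fin n => (b i : M → K) (e j)).det ^ 2 = algebraMap R K (c ^ n * u) := by
  classical
  obtain ⟨c, lam, hc, hlam, t, ht⟩ := h.exists_lam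
  refine ⟨c, _, hc, h.isUnit_gram b hc hlam ht, ?_⟩
  set B : Matrix (Fin n) (Fin n) K := Matrix.of fun i j : Fin n => (b i : M → K) (e j) with hB
  have h1 : B.det ^ 2 = (B * B.transpose).det := by
    rw [Matrix.det_mul, Matrix.det_transpose, pow_two]
  have h2 : c ^ n * (Matrix.of fun i j : Fin n => lam (b i * b j)).det =
      (c • (Matrix.of fun i j : Fin n => lam (b i * b j))).det := by
    rw [Matrix.det_smul, Fintype.card_fin]
  rw [h1, h2, RingHom.map_det]
  congr 1
  ext i j
  rw [Matrix.mul_apply, RingHom.mapMatrix_apply, Matrix.map_apply, Matrix.smul_apply,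
    Matrix.of_apply, smul_eq_mul, ← hlam, h.T_spec]
  rw [← Equiv.sum_comp e]
  rfl

end HopfOrder

end Fermat.Agent.P2.St2
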