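import Mathlib
import Fermat.Agent.P2.St2.Disc
import Fermat.Agent.FlatModel.Quot
import Fermat.Agent.P2.Defs

/-!
# The residual representation of the auxiliary curve is not finite flat at `2`
-/

set_option autoImplicit false

open TensorProduct IsLocalRing Fermat.FlatModel GaloisRep

namespace Fermat.Agent.P2.St2

/-! ### `ℤ_(p)` -/

theorem isUnit_of_num {p : ℕ} (hp : p.Prime) (x : ratLocalizedAt p)
    (h : ¬ (p : ℤ) ∣ (x : ℚ).num) : IsUnit x := by
  have hx0 : (x : ℚ) ≠ 0 := by
    intro h0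
    apply h
    rw [h0]
    exact dvd_zero _
  have hmem : ((x : ℚ)⁻¹) ∈ ratLocalizedAt p := by
    change ((x : ℚ)⁻¹).den.Coprime p
    rw [Rat.den_inv_of_ne_zero hx0, Nat.coprime_comm]
    refine (Nat.Prime.coprime_iff_not_dvd hp).mpr fun hd => h ?_
    exact Int.natCast_dvd.mpr hd
  refine IsUnit.of_mul_eq_one ⟨_, hmem⟩ (Subtype.ext ?_)
  show (x : ℚ) * (x : ℚ)⁻¹ = 1
  exact mul_inv_cancel₀ hx0

theorem isLocalRing_ratLocalizedAt {p : ℕ} (hp : p.Prime) : IsLocalRing (ratLocalizedAt p) := by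
  refine IsLocalRing.of_isUnit_or_isUnit_one_sub_self fun x => ?_
  by_cases h : (p : ℤ) ∣ (x : ℚ).num
  · right
    refine isUnit_of_num hp _ fun h' => ?_
    -- `x.num + (1 - x).num * ... `
    have hcop : (x : ℚ).den.Coprime p := x.2
    have hcop' : (((1 - x : ratLocalizedAt p) : ℚ)).den.Coprime p := (1 - x : ratLocalizedAt p).2
    have e1 : (((1 - x : ratLocalizedAt p) : ℚ)) = 1 - (x : ℚ) := rfl
    have e2 : (1 : ℚ) = (x : ℚ) + ((1 - x : ratLocalizedAt p) : ℚ) := by rw [e1]; ring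
    set y : ℚ := ((1 - x : ratLocalizedAt p) : ℚ) with hy
    have e3 : ((x : ℚ).den * y.den : ℤ) = (x : ℚ).num * y.den + y.num * (x : ℚ).den := by
      have hx := Rat.num_div_den (x : ℚ)
      have hyy := Rat.num_div_den y
      have hxd : ((x : ℚ).den : ℚ) ≠ 0 := by exact_mod_cast (x : ℚ).den_nz
      have hyd : (y.den : ℚ) ≠ 0 := by exact_mod_cast y.den_nz
      have : (((x : ℚ).den * y.den : ℤ) : ℚ) =
          (((x : ℚ).num * y.den + y.num * (x : ℚ).den : ℤ) : ℚ) := by
        push_cast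
        calc ((x : ℚ).den : ℚ) * y.den = ((x : ℚ).den : ℚ) * y.den * 1 := by ring
          _ = ((x : ℚ).den : ℚ) * y.den * (((x : ℚ).num : ℚ) / (x : ℚ).den + (y.num : ℚ) / y.den) := by
              rw [hx, hyy, ← e2]
          _ = _ := by field_simp
      exact_mod_cast this
    have e4 : (p : ℤ) ∣ ((x : ℚ).den * y.den : ℤ) := by
      rw [e3]
      exact dvd_add (h.mul_right _) (h'.mul_right _)
    have hpi := Nat.prime_iff_prime_int.mp hp
    rcases hpi.dvd_or_dvd e4 with h5 | h5
    · have : p ∣ (x : ℚ).den := by exact_mod_cast h5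
      exact hp.one_lt.ne' (Nat.dvd_one.mp ((Nat.Coprime.dvd_of_dvd_mul_left hcop.symm
        (by simpa using this))))
    · have : p ∣ y.den := by exact_mod_cast h5
      exact hp.one_lt.ne' (Nat.dvd_one.mp ((Nat.Coprime.dvd_of_dvd_mul_left hcop'.symm
        (by simpa using this))))
  · left
    exact isUnit_of_num hp x h

theorem padicValRat_unit {p : ℕ} (hp : p.Prime) {u : ratLocalizedAt p} (hu : IsUnit u) :
    padicValRat p (u : ℚ) = 0 := by
  haveI := Fact.mk hp
  have key : ∀ x : ratLocalizedAt p, x ≠ 0 → 0 ≤ padicValRat p (x : ℚ) := by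
    intro x _
    rw [padicValRat_def]
    have : padicValNat p (x : ℚ).den = 0 := by
      refine padicValNat.eq_zero_of_not_dvd fun h => ?_
      have hcop : (x : ℚ).den.Coprime p := x.2
      exact hp.one_lt.ne' (Nat.dvd_one.mp (Nat.Coprime.dvd_of_dvd_mul_left hcop.symm
        (by simpa using h)))
    rw [this]
    simp
  obtain ⟨v, hv⟩ := hu.exists_right_inv
  have hu0 : u ≠ 0 := hu.ne_zero
  have hv0 : v ≠ 0 := by rintro rfl; simp at hv
  have e1 : (u : ℚ) * (v : ℚ) = 1 := congrArg Subtype.val hv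
  have e2 := padicValRat.mul (p := p) (q := (u : ℚ)) (r := (v : ℚ))
    (fun h => hu0 (Subtype.ext h)) (fun h => hv0 (Subtype.ext h))
  rw [e1, padicValRat.one] at e2
  have e3 := key u hu0
  have e4 := key v hv0
  omega

/-! ### the discriminant of a module with a flat model -/

theorem hopfOrder_of {p : ℕ} {M : Type} [AddCommGroup M] [Fintype M]
    {act : GQ →* AddMonoid.End M} {A : Subalgebra (ratLocalizedAt p) (M → Qb)}
    (hA : IsFlatOrder p act A) : HopfOrder A := by
  have hin := hA.hopfInput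
  refine ⟨hin.inj_base, ?_, ?_, ?_, ?_⟩
  · intro a
    obtain ⟨t, ht⟩ := hin.comul a
    obtain ⟨s, rfl⟩ := TensorProduct.exists_finset t
    refine ⟨s, fun x y => ?_⟩
    have h1 := ht x y
    rw [map_sum, Finset.sum_apply] at h1
    exact h1.symm
  · intro a
    obtain ⟨a', ha'⟩ := hin.neg a
    exact ⟨a', ha'⟩
  · intro a
    obtain ⟨r, hr⟩ := hin.counit a
    exact ⟨r, hr⟩
  · intro a
    refine exists_ratLocalizedAt_of_isIntegral p (fun σ => ?_) ?_
    · rw [map_sum]
      have hbij : Function.Bijective (act σ) := by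
        refine Function.bijective_iff_has_inverse.mpr ⟨act σ⁻¹, fun x => ?_, fun x => ?_⟩
        · have : act σ⁻¹ (act σ x) = (act (σ⁻¹ * σ)) x := by rw [map_mul]; rfl
          rw [this, inv_mul_cancel, map_one]; rfl
        · have : act σ (act σ⁻¹ x) = (act (σ * σ⁻¹)) x := by rw [map_mul]; rfl
          rw [this, mul_inv_cancel, map_one]; rfl
      rw [← Function.Bijective.sum_comp hbij (fun x => (a : M → Qb) x)]
      exact Finset.sum_congr rfl fun x _ => (hA.equivariant a a.2 σ x).symm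
    · have := hA.moduleFinite
      have h : IsIntegral (ratLocalizedAt p) a := Algebra.IsIntegral.isIntegral _
      exact IsIntegral.sum _ fun x _ => h.map ((ev p x).comp A.val)

theorem exists_disc_of_hasFlatModel {p : ℕ} (hp : p.Prime) {M : Type} [AddCommGroup M]
    [Fintype M] [DecidableEq M] {act : GQ →* AddMonoid.End M} (h : HasFlatModel p act)
    (π : GQ → Equiv.Perm M) (hπ : ∀ σ m, π σ m = act σ m) :
    ∃ (d : Qb) (c u : ratLocalizedAt p), c ≠ 0 ∧ IsUnit u ∧
      d ^ 2 = algebraMap (ratLocalizedAt p) Qb (c ^ Fintype.card M * u) ∧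
      ∀ σ : GQ, σ d = ((Equiv.Perm.sign (π σ) : ℤ) : Qb) * d := by
  haveI := isLocalRing_ratLocalizedAt hp
  obtain ⟨A, hA⟩ := h.exists_order
  have hH := hopfOrder_of hA
  obtain ⟨n, b, B, hB⟩ := hA.exists_basis
  have hn : n = Fintype.card M := by
    have h1 := Module.finrank_eq_card_basis B
    rw [Module.finrank_fintype_fun_eq_card, Fintype.card_fin] at h1
    exact h1.symm
  have e : Fin n ≃ M := (finCongr hn).trans (Fintype.equivFin M).symm
  obtain ⟨c, u, hc, hu, hd⟩ := hH.exists_disc b e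
  refine ⟨_, c, u, hc, hu, by rw [hd, hn], fun σ => ?_⟩
  have h1 : σ (Matrix.of fun i j : Fin n => (b i : M → Qb) (e j)).det =
      (Matrix.of fun i j : Fin n => (b i : M → Qb) (act σ (e j))).det := by
    have h2 := RingHom.map_det (σ : Qb →+* Qb)
      (Matrix.of fun i j : Fin n => (b i : M → Qb) (e j))
    refine h2.trans ?_
    congr 1
    ext i j
    exact (hA.equivariant _ (b i).2 σ (e j)).symm
  rw [h1]
  let τ : Equiv.Perm (Fin n) := (e.trans (π σ)).trans e.symm
  have h3 : (Matrix.of fun i j : Fin n => (b i : M → Qb) (act σ (e j))) =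
      (Matrix.of fun i j : Fin n => (b i : M → Qb) (e j)).submatrix id τ := by
    ext i j
    show (b i : M → Qb) (act σ (e j)) = (b i : M → Qb) (e (e.symm (π σ (e j))))
    rw [Equiv.apply_symm_apply, hπ]
  rw [h3, Matrix.det_permute']
  congr 2
  have h4 : Equiv.Perm.sign τ = Equiv.Perm.sign (π σ) := by
    have : τ = (Equiv.permCongr e.symm) (π σ) := by
      ext x
      rfl
    rw [this, Equiv.Perm.sign_permCongr]
  rw [h4]

/-! ### signs of the elements of `GL₂(𝔽₂)` -/

theorem sign_iff : ∀ (B : Matrix (Fin 2) (Fin 2) (ZMod 2)) (π : Equiv.Perm (Fin 2 → ZMod 2)),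
    (∀ v, π v = B.mulVec v) → (Equiv.Perm.sign π = 1 ↔ (B = 1 ∨ B.trace = 1)) := by
  decide +kernel

/-! ### the representation of `GalData` -/

/-- the residual representation as an additive action -/
noncomputable def resAct (ρ : Sel.GQ →* GL (Fin 2) ℤ_[2]) : GQ →* AddMonoid.End (Fin 2 → ZMod 2) where
  toFun g := (resRep ρ g).toAddMonoidHom
  map_one' := by
    rw [map_one]
    rfl
  map_mul' g h := by
    rw [map_mul]
    rfl

@[simp] theorem resAct_apply (ρ : Sel.GQ →* GL (Fin 2) ℤ_[2]) (g : GQ) (v : Fin 2 → ZMod 2) :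
    resAct ρ g v = resRep ρ g v := rfl

theorem resRep_apply (ρ : Sel.GQ →* GL (Fin 2) ℤ_[2]) (g : GQ) (v : Fin 2 → ZMod 2) :
    resRep ρ g v = ((ρ g : Matrix (Fin 2) (Fin 2) ℤ_[2]).map PadicInt.toZMod).mulVec v := rfl

/-- **The residual representation of the auxiliary curve has no finite flat model at `2`.** -/
theorem not_hasFlatModel {S : Finset ℕ} {a : ℕ → ℤ} (D : GalData S a) (hS : ∀ q ∈ S, q.Prime)
    (h2 : 2 ∈ S) : ¬ HasFlatModel 2 (resAct D.ρ) := by
  classical
  intro h
  haveI := Fact.mk Nat.prime_two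
  have hbij : ∀ σ : GQ, Function.Bijective (resAct D.ρ σ) := by
    intro σ
    refine Function.bijective_iff_has_inverse.mpr ⟨resAct D.ρ σ⁻¹, fun x => ?_, fun x => ?_⟩
    · have : resAct D.ρ σ⁻¹ (resAct D.ρ σ x) = (resAct D.ρ (σ⁻¹ * σ)) x := by rw [map_mul]; rfl
      rw [this, inv_mul_cancel, map_one]; rfl
    · have : resAct D.ρ σ (resAct D.ρ σ⁻¹ x) = (resAct D.ρ (σ * σ⁻¹)) x := by rw [map_mul]; rfl
      rw [this, mul_inv_cancel, map_one]; rfl
  let π : GQ → Equiv.Perm (Fin 2 → ZMod 2) := fun σ => Equiv.ofBijective _ (hbij σ)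
  obtain ⟨d, c, u, hc, hu, hd, hσ⟩ := exists_disc_of_hasFlatModel Nat.prime_two h π
    (fun σ m => rfl)
  -- the square root of `-N`
  set N : ℕ := ∏ q ∈ S, q with hN
  obtain ⟨r, hr⟩ := IsAlgClosed.exists_pow_nat_eq (-(N : Qb)) (n := 2) two_pos
  have hN0 : N ≠ 0 := Finset.prod_ne_zero_iff.mpr fun q hq => (hS q hq).ne_zero
  have hfix : ∀ σ : GQ, σ (d * r) = d * r := by
    intro σ
    have h1 := D.disc r hr σ
    have h3 : (∀ i j, PadicInt.toZMod (((D.ρ σ : Matrix (Fin 2) (Fin 2) ℤ_[2]) - 1) i j) = 0) ↔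
        ((D.ρ σ : Matrix (Fin 2) (Fin 2) ℤ_[2]).map PadicInt.toZMod) = 1 := by
      constructor
      · intro h4
        ext i j
        have h5 := h4 i j
        rw [Matrix.sub_apply, map_sub, sub_eq_zero] at h5
        rw [Matrix.map_apply, h5]
        by_cases hij : i = j
        · subst hij; simp
        · simp [Matrix.one_apply_ne hij]
      · intro h4 i j
        have h5 := congrFun (congrFun h4 i) j
        rw [Matrix.map_apply] at h5
        rw [Matrix.sub_apply, map_sub, h5]
        by_cases hij : i = j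
        · subst hij; simp
        · simp [Matrix.one_apply_ne hij]
    have h4 : PadicInt.toZMod ((D.ρ σ : Matrix (Fin 2) (Fin 2) ℤ_[2]).trace) =
        ((D.ρ σ : Matrix (Fin 2) (Fin 2) ℤ_[2]).map PadicInt.toZMod).trace := by
      rw [Matrix.trace_fin_two, Matrix.trace_fin_two, map_add]
      rfl
    rw [h3, h4] at h1
    have h5 := sign_iff ((D.ρ σ : Matrix (Fin 2) (Fin 2) ℤ_[2]).map PadicInt.toZMod) (π σ)
      (fun v => rfl)
    rw [← h5] at h1
    rw [map_mul, hσ]
    have hr2 : σ r = r ∨ σ r = -r := by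
      refine sq_eq_sq_iff_eq_or_eq_neg.mp ?_
      rw [← map_pow, hr, map_neg, map_natCast]
    rcases Int.units_eq_one_or (Equiv.Perm.sign (π σ)) with h6 | h6
    · rw [h1.mpr h6, h6]
      simp
    · have h7 : σ r ≠ r := fun h8 => by
        have := h1.mp h8
        rw [h6] at this
        exact absurd this (by decide)
      rw [hr2.resolve_left h7, h6]
      push_cast
      ring
  obtain ⟨q, hq⟩ := exists_rat_of_forall_fixed hfix
  have hcard : Fintype.card (Fin 2 → ZMod 2) = 4 := by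
    rw [Fintype.card_fun, ZMod.card, Fintype.card_fin]; norm_num
  have key : ((c : ℚ) ^ 4 * (u : ℚ)) * (-(N : ℚ)) = q ^ 2 := by
    apply (algebraMap ℚ Qb).injective
    rw [map_pow, hq, mul_pow, hd, hr, hcard, map_mul, map_neg, map_natCast]
    rfl
  have hc0 : (c : ℚ) ≠ 0 := fun h0 => hc (Subtype.ext h0)
  have hu0 : (u : ℚ) ≠ 0 := fun h0 => hu.ne_zero (Subtype.ext h0)
  have hNq : (N : ℚ) ≠ 0 := by exact_mod_cast hN0
  have hq0 : q ≠ 0 := by
    rintro rfl
    have : ((c : ℚ) ^ 4 * (u : ℚ)) * (-(N : ℚ)) ≠ 0 :=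
      mul_ne_zero (mul_ne_zero (pow_ne_zero _ hc0) hu0) (neg_ne_zero.mpr hNq)
    exact this (by rw [key]; ring)
  have hvN : padicValNat 2 N = 1 := by
    rw [hN, ← Finset.mul_prod_erase S (fun q => q) h2]
    have h3 : ∏ q ∈ S.erase 2, q ≠ 0 :=
      Finset.prod_ne_zero_iff.mpr fun q hq => (hS q (Finset.mem_of_mem_erase hq)).ne_zero
    rw [padicValNat.mul (by norm_num) h3, padicValNat_self]
    have h4 : padicValNat 2 (∏ q ∈ S.erase 2, q) = 0 := by
      refine padicValNat.eq_zero_of_not_dvd fun h5 => ?_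
      obtain ⟨p, hp, hpd⟩ := (Nat.prime_two.prime).exists_mem_finset_dvd h5
      have h6 := (Nat.prime_dvd_prime_iff_eq Nat.prime_two
        (hS p (Finset.mem_of_mem_erase hp))).mp hpd
      exact Finset.ne_of_mem_erase hp h6.symm
    rw [h4]
  have hval := congrArg (padicValRat 2) key
  rw [padicValRat.mul (mul_ne_zero (pow_ne_zero _ hc0) hu0) (neg_ne_zero.mpr hNq),
    padicValRat.mul (pow_ne_zero _ hc0) hu0, padicValRat.pow, padicValRat.pow,
    padicValRat.neg, padicValRat_unit Nat.prime_two hu, ← padicValRat_of_nat, hvN] at hval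
  push_cast at hval
  omega

end Fermat.Agent.P2.St2
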